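import Fermat.Agent.MLT.Two.Main
import Fermat.Agent.MLT.Odd.LiftUnit
import Fermat.Agent.MLT.Dihedral.Main
import Fermat.Agent.MLT.SwitchThree
import Fermat.Agent.MLT.SwitchThreeToFive
import Fermat.Agent.Descent.FiveSwitchAtTwoInst
import Fermat.Agent.Descent.ModThreeOrFive
import Fermat.Agent.Descent.RankZero15
import Fermat.Agent.Galois.MazurP.AwayInstance2
import Fermat.Agent.Galois.AttachmentProved
import Fermat.Agent.S35

/-!
# R2: semistable curves are modular at their conductor

One of `E[3]`, `E[5]` is irreducible; the switches at 5 and at 3 lead to an anchor curve, whose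
`E[2]` is dihedral, hence modular; minimal lifting at 2 and lifting at 3 and at 5 go back up.
-/

set_option autoImplicit false

open WeierstrassCurve
open FermatLib.MLT

namespace FermatLib.Route

/-- Frobenius at a bad prime of a newform (S35), in the shape of the level bookkeeping. -/
theorem newformFrobeniusAtBadPrime : NewformFrobeniusAtBadPrime :=
  fun {M} _ {g} hg lam _ S O' _ _ _ _ _ _ hlamO' chig hchig iota hlamS hMS =>
    Fermat.Agent.S35.result hg lam S O' hlamO' chig hchig iota hlamS hMS

/-- **Every semistable model is modular at its exact conductor.** -/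
theorem exactConductor_of_semistable {W : WeierstrassCurve ℤ} (hΔ : W.Δ ≠ 0)
    (hW : W.IsSemistableModel) : Mlc1IsModularModelOfExactConductorLevel W :=
  Odd.exactConductor_of_semistable_unit Galois.padicAttachment newformFrobeniusAtBadPrime
    MazurP.mazurNonScalar (dihedralModTwo Galois.padicAttachment)
    (Two.minimalLiftingAtTwo Galois.padicAttachment newformFrobeniusAtBadPrime)
    threeSwitchToAnchor Descent.fiveSwitchAtTwo threeSwitchToFiveIrreducible
    (fun V hV hV' => Descent.modRepIsIrreducible_three_or_five Descent.rankZero15 V hV hV') hΔ hW

/-- The integral Frey model is modular at its exact conductor. -/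
theorem freyExactConductor (P : FreyPackage) :
    Mlc1IsModularModelOfExactConductorLevel P.freyCurveInt :=
  exactConductor_of_semistable (Basic.Frey.freyCurveInt_Δ_ne_zero P)
    (Basic.Frey.freyCurveInt_isSemistableModel P)

end FermatLib.Route
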