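import Fermat.Agent.Basic.FreyLevelLowering
import Fermat.Agent.MLT.Odd.AvoidFinal
import Fermat.Agent.Galois.MazurP.AtP
import Fermat.Agent.Galois.MazurP.AwayInstance2
import Fermat.Agent.Galois.AttachmentProved

/-!
# R3: level lowering of the Frey curve to level two

Remove `p` (`MazurP.mazurLoweringAtP`), then each odd prime which is not 1 mod `p` by Mazur's
principle, then all remaining odd primes at once by avoidance.
-/

set_option autoImplicit false

open WeierstrassCurve WeierstrassCurve.Affine WeierstrassCurve.Affine.Point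
open FreyPackage FermatLib.Basic

namespace FermatLib.Route

/-- Mazur's principle away from `p`. -/
theorem mazurLoweringAway : MazurLoweringAway := by
  intro P hirr M q hcond hpM hq _ hqM hq1 hunr hmod
  have := Fact.mk P.pp
  have h5 := P.hp5
  have hΔ := Frey.freyCurveInt_Δ_ne_zero P
  have hunr' : GaloisRepUnramifiedAt (K := AlgebraicClosure ℚ) ℚ
      (P.freyCurveInt.map (Int.castRingHom ℚ)) P.p q := by
    rw [Frey.map_freyCurveInt P]
    exact hunr
  refine ⟨M / q, Nat.div_dvd_of_dvd hqM, fun hd => hcond.sq_not_dvd hq ?_,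
    MLT.Odd.isResiduallyModularOfLevel_div_of_mazurNonScalar hΔ Galois.padicAttachment
      MazurP.mazurNonScalar (by omega) (Frey.freyCurveInt_isSemistableModel P) hirr
      hcond.squarefree hq hqM (fun hqp => hpM (hqp ▸ hqM))
      (fun A hA σ hσ => LinearMap.ext fun x => hunr' A hA σ hσ x) (fun h => hq1 h.1) hmod⟩
  have := Nat.mul_dvd_mul_left q hd
  rwa [Nat.mul_div_cancel' hqM, ← pow_two] at this

/-- Avoidance of the primes congruent to 1 mod `p`. -/
theorem avoidanceLowering : AvoidanceLowering :=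
  MLT.Odd.avoidanceLowering_of_minimal
    (MLT.Odd.avoidanceMinimal_of_mazur Galois.padicAttachment MazurP.mazurNonScalar)

/-- **An irreducible modular Frey curve gives a nonzero cusp form of weight 2 and level 2.** -/
theorem exists_cuspForm_two (P : FreyPackage)
    (hmod : Mlc1IsModularModelOfExactConductorLevel P.freyCurveInt)
    (hirr : GaloisRepIsIrreducible (K := AlgebraicClosure ℚ) ℚ P.freyCurve P.p) :
    ∃ f : CuspForm (CongruenceSubgroup.Gamma0 2) 2, f ≠ 0 :=
  exists_cuspForm_two_of_lowering MazurP.mazurLoweringAtP mazurLoweringAway avoidanceLowering P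
    (modRepIsIrreducible_freyCurveInt P hirr) (freyResiduallyModular_of_exactConductor P hmod)

/-- An odd prime can be removed from a conductor level, together with all the others. -/
theorem exists_level_not_dvd (P : FreyPackage) {N q : ℕ} (hcond : P.IsConductorLevel N)
    (hq : q.Prime) (hq2 : q ≠ 2)
    (hirr : GaloisRepIsIrreducible (K := AlgebraicClosure ℚ) ℚ P.freyCurve P.p)
    (hmod : P.ModularRepOfLevel N) :
    ∃ M : ℕ, M ∣ N ∧ ¬ q ∣ M ∧ P.ModularRepOfLevel M := by
  have hirr' := modRepIsIrreducible_freyCurveInt P hirr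
  have hmod' := (MLT.modularRepOfLevel_iff Galois.padicAttachment P N).1 hmod
  obtain ⟨N', hN'N, hcond', hpN', hN'⟩ : ∃ N', N' ∣ N ∧ P.IsConductorLevel N' ∧ ¬ P.p ∣ N' ∧
      FreyResModular P N' := by
    by_cases hpN : P.p ∣ N
    · obtain ⟨M, hMN, hpM, hM⟩ := MazurP.mazurLoweringAtP P hirr' N hcond hpN hmod'
      exact ⟨M, hMN, hcond.of_dvd hMN (Nat.pos_of_dvd_of_pos hMN hcond.pos), hpM, hM⟩
    · exact ⟨N, dvd_rfl, hcond, hpN, hmod'⟩
  obtain ⟨M, hMN', hcondM, hM, hall⟩ :=
    exists_level_all_one_mod mazurLoweringAway P hirr' N' hcond' hpN' hN'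
  obtain ⟨M', hM'M, hM'2, hM'⟩ := avoidanceLowering P hirr' M hcondM hall hM
  refine ⟨M', hM'M.trans (hMN'.trans hN'N), fun hqM => hq2 ?_,
    modularRepOfLevel_of_freyResModular P hM'⟩
  exact (Nat.prime_dvd_prime_iff_eq hq Nat.prime_two).1 (hqM.trans hM'2)

end FermatLib.Route
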