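import Fermat.Agent.Route.Reduction
import Fermat.Agent.Route.Modularity
import Fermat.Agent.Route.LevelLowering
import Fermat.Agent.S09
import Fermat.Agent.Basic.SmallLevelCusp

/-!
# The proof of Fermat's Last Theorem

* R0, `Route.Reduction`: a solution gives a Frey package.
* R1, `Fermat.Agent.S09`: the mod `p` representation of the Frey curve is irreducible (Mazur).
* R2, `Route.Modularity`: semistable curves, so the Frey curve, are modular at the conductor.
* R3, `Route.LevelLowering`: then there is a nonzero cusp form of weight 2 and level 2.
  There is none, so there is no Frey package.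
-/

set_option autoImplicit false

namespace FermatLib.Route

/-- **No Frey package exists.** -/
theorem no_freyPackage (P : FreyPackage) : False := by
  have hirr := Fermat.Agent.S09.result P -- R1
  have hmod := freyExactConductor P -- R2
  obtain ⟨f, hf⟩ := exists_cuspForm_two P hmod hirr -- R3
  exact hf (Basic.cuspForm_two_Gamma0_eq_zero 2 (by norm_num) f)

/-- **Fermat's Last Theorem.** -/
theorem fermat (n : ℕ) (hn : 3 ≤ n) (a b c : ℕ) (ha : 0 < a) (hb : 0 < b) (hc : 0 < c) :
    a ^ n + b ^ n ≠ c ^ n :=
  fermat_of_no_freyPackage no_freyPackage n hn a b c ha hb hc -- R0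

end FermatLib.Route
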