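import Fermat.Agent.S02
import Mathlib.NumberTheory.FLT.Four
import Mathlib.NumberTheory.FLT.Three

/-!
# R0: reduction of Fermat's Last Theorem to Frey packages

Exponents 3 and 4 are Mathlib's; a solution for a prime exponent `p ≥ 5` gives a Frey package (S02).
-/

set_option autoImplicit false

namespace FermatLib.Route

/-- Fermat's Last Theorem follows once no Frey package exists. -/
theorem fermat_of_no_freyPackage (h : FreyPackage → False) (n : ℕ) (hn : 3 ≤ n) (a b c : ℕ)
    (ha : 0 < a) (hb : 0 < b) (hc : 0 < c) : a ^ n + b ^ n ≠ c ^ n := by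
  refine FermatLastTheorem.of_odd_primes (fun p hp hodd => ?_) n hn a b c ha.ne' hb.ne' hc.ne'
  rcases eq_or_ne p 3 with rfl | hp3
  · exact fermatLastTheoremThree
  have hp5 : 5 ≤ p := by
    obtain ⟨k, rfl⟩ := hodd
    have := hp.two_le
    omega
  refine fermatLastTheoremFor_iff_int.2 fun x y z hx hy hz H => ?_
  exact (Fermat.Agent.S02.result x y z hx hy hz p hp hp5 H).elim h

end FermatLib.Route
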